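/-
S59 MOONSHOT / cell (A) = wall-p at `p = 3` / leaf UNIT-EIS for the new units (helper37).

At `p = 3` the unit `Δ(t^p)/Δ(t)` of the `p ≥ 5` chain (slope `12`) is replaced by an η-quotient
of slope prime to `3` (candidates: `(η₁η₂/(η₃η₆))⁸`, the Hauptmodul `η₁⁵η₃/(η₂η₆⁵)` of `Γ₀(6)`,
`η₁η_r/(η₃η_{3r})`).  The leaf UNIT-EIS (`kronNorm ℓ u = c · u^(ℓ+1)`, `c ≠ 0`) is the same
formal statement for every such unit; this file proves it once for ALL formal η-quotients: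

* `IsEtaQuot ℓ x` : `x : LaurentSeries ℤ` is built from `t^k` (`k : ℤ`) and the Euler products
  `E(t^d)`, `ℓ ∤ d`, by products and inverses;
* `IsEtaQuot.isNormEig` : over any field `L` with a primitive `ℓ`-th root of unity (`ℓ` prime),
  the base change of an η-quotient is an eigen-unit of the Kronecker norm;
* `unitEis_of_isEtaQuot` : the same in the shape of `Ribet.H884.UnitEisStatement`
  (constant written `algebraMap L (LaurentSeries L) c`, which is what `cst c` unfolds to);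
* `isEtaQuot_shape8` / `unitEis_shape8` : the unit `t⁻² (E(t)E(t²)/(E(t³)E(t⁶)))⁸` in the exact
  syntactic shape of `S59.Unit3.H461.v3L` (apply with `I := etaInvP`,
  `hI := etaProd_mul_etaInvP`; no import of the analytic files is needed);
* `isEtaQuot_shapeD6` / `unitEis_shapeD6` : the Hauptmodul `t⁻¹ E(t)⁵E(t³)/(E(t²)E(t⁶)⁵)`;
* `isEtaQuot_shapeR` / `unitEis_shapeR` : `t^(-s) (E(t)E(t^r)/(E(t³)E(t^(3r))))^n`.

Imports: `Ribet.H67.UnitEisLaurent` only (helper67's Euler-product calculus).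
-/
import Fermat.Agent.Ribet.H67.UnitEisLaurent

set_option autoImplicit false

noncomputable section

namespace Fermat.Agent.S59.Unit3.H37

open PowerSeries ModularCurve
open Fermat.Agent.S37 Fermat.Agent.S37.H400
open Fermat.Agent.Ribet.H67

/-! ## Formal η-quotients -/

/-- **Formal η-quotients prime to `ℓ`**: the integral Laurent series obtained from the monomials
`t^k` and the Euler products `E(t^d) = ∏ₙ (1 - t^{dn})`, `ℓ ∤ d`, by products and inverses. -/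
inductive IsEtaQuot (ℓ : ℕ) : LaurentSeries ℤ → Prop
  | single (k : ℤ) : IsEtaQuot ℓ (HahnSeries.single k (1 : ℤ))
  | eulerAt (d : ℕ) [NeZero d] (hd : ¬ ℓ ∣ d) :
      IsEtaQuot ℓ (qExpand ℤ d (HahnSeries.ofPowerSeries ℤ ℤ etaProd))
  | mul {x y : LaurentSeries ℤ} : IsEtaQuot ℓ x → IsEtaQuot ℓ y → IsEtaQuot ℓ (x * y)
  | inv {x y : LaurentSeries ℤ} : IsEtaQuot ℓ x → x * y = 1 → IsEtaQuot ℓ y

namespace IsEtaQuot

variable {ℓ : ℕ}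

theorem one : IsEtaQuot ℓ (1 : LaurentSeries ℤ) := IsEtaQuot.single 0

theorem pow {x : LaurentSeries ℤ} (hx : IsEtaQuot ℓ x) (n : ℕ) : IsEtaQuot ℓ (x ^ n) := by
  induction n with
  | zero => rw [pow_zero]; exact one
  | succ n ih => rw [pow_succ]; exact ih.mul hx

theorem inv' {x y : LaurentSeries ℤ} (hx : IsEtaQuot ℓ x) (h : y * x = 1) : IsEtaQuot ℓ y :=
  hx.inv (by rw [mul_comm]; exact h)

/-- The Euler product `E(t)` itself (`ℓ ≠ 1`). -/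
theorem euler (hℓ : ℓ ≠ 1) : IsEtaQuot ℓ (HahnSeries.ofPowerSeries ℤ ℤ etaProd) := by
  have h := IsEtaQuot.eulerAt (ℓ := ℓ) 1 (fun h => hℓ (Nat.dvd_one.1 h))
  rwa [qExpand_one_apply] at h

/-- `E(t)^n`, as the Laurent series of the power series `etaProd ^ n`. -/
theorem euler_pow (hℓ : ℓ ≠ 1) (n : ℕ) :
    IsEtaQuot ℓ (HahnSeries.ofPowerSeries ℤ ℤ (etaProd ^ n)) := by
  rw [map_pow]
  exact (euler hℓ).pow n

/-- `E(t)^(-n)`, as the Laurent series of `I ^ n` for ANY formal inverse `I` of `etaProd`. -/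
theorem euler_inv_pow (hℓ : ℓ ≠ 1) {I : PowerSeries ℤ} (hI : etaProd * I = 1) (n : ℕ) :
    IsEtaQuot ℓ (HahnSeries.ofPowerSeries ℤ ℤ (I ^ n)) := by
  refine (euler_pow hℓ n).inv ?_
  rw [← map_mul, ← mul_pow, hI, one_pow, map_one]

/-- η-quotients prime to `ℓ` are stable under `t ↦ t^d`, `ℓ ∤ d` (`ℓ` prime). -/
theorem qExpand (hℓ : ℓ.Prime) (d : ℕ) [NeZero d] (hd : ¬ ℓ ∣ d) {x : LaurentSeries ℤ}
    (hx : IsEtaQuot ℓ x) : IsEtaQuot ℓ (qExpand ℤ d x) := by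
  induction hx with
  | single k =>
    rw [qExpand_single]
    exact IsEtaQuot.single _
  | eulerAt e he =>
    rw [qExpand_qExpand]
    exact IsEtaQuot.eulerAt (d * e) (fun h => (hℓ.dvd_mul.1 h).elim hd he)
  | mul _ _ ihx ihy =>
    rw [map_mul]
    exact ihx.mul ihy
  | inv _ hxy ihx =>
    refine ihx.inv ?_
    rw [← map_mul, hxy, map_one]

end IsEtaQuot

/-! ## The Kronecker norm of an η-quotient -/

section Main

variable {L : Type*} [Field L]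

/-- The monomials `t^k`, `k : ℤ`, are eigen-units of the Kronecker norm. -/
theorem isNormEig_single {ℓ : ℕ} [NeZero ℓ] (hℓ : ℓ.Prime) {ζ : L} (hζ : IsPrimitiveRoot ζ ℓ)
    (k : ℤ) : IsNormEig ℓ (HahnSeries.single k (1 : L) : LaurentSeries L) := by
  have hε : (∏ b : Fin ℓ, ζ ^ (b : ℕ)) ≠ 0 :=
    Finset.prod_ne_zero_iff.2 fun b _ => pow_ne_zero _ (hζ.ne_zero hℓ.ne_zero)
  have hq : IsNormEig ℓ (H340.qq : LaurentSeries L) := ⟨_, hε, kronNorm_qq hζ⟩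
  have hnat : ∀ n : ℕ, IsNormEig ℓ (HahnSeries.single (n : ℤ) (1 : L) : LaurentSeries L) := by
    intro n
    rw [← H340.qq_pow]
    exact hq.pow n
  rcases le_or_gt 0 k with hk | hk
  · lift k to ℕ using hk
    exact hnat k
  · obtain ⟨n, hn⟩ : ∃ n : ℕ, (n : ℤ) = -k := ⟨(-k).toNat, Int.toNat_of_nonneg (by omega)⟩
    refine (hnat n).of_mul_eq_one (g := HahnSeries.single k (1 : L)) ?_
    rw [HahnSeries.single_mul_single, hn, neg_add_cancel, mul_one]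
    rfl

/-- The Euler products `E(t^d)`, `ℓ ∤ d`, are fixed by `f ↦ kronNorm ℓ f / f^(ℓ+1)`. -/
theorem isNormEig_eulerAt {ℓ : ℕ} [NeZero ℓ] (hℓ : ℓ.Prime) {ζ : L} (hζ : IsPrimitiveRoot ζ ℓ)
    (d : ℕ) [NeZero d] (hd : ¬ ℓ ∣ d) :
    IsNormEig ℓ (qExpand L d (HahnSeries.ofPowerSeries ℤ L (etaK L))) := by
  rw [← ofPS_expand d (NeZero.ne d)]
  exact ⟨1, one_ne_zero, by
    rw [map_one, one_mul]
    exact kronNorm_ofPS_of_identity hζ _ (etaK_expand_norm_identity hℓ hζ d (NeZero.ne d) hd)⟩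

/-- **UNIT-EIS for all η-quotients.**  Over a field `L` with a primitive `ℓ`-th root of unity
(`ℓ` prime), the base change of a formal η-quotient prime to `ℓ` is an eigen-unit of the
Kronecker norm: `kronNorm ℓ x = C c · x^(ℓ+1)` with `c ≠ 0`. -/
theorem IsEtaQuot.isNormEig {ℓ : ℕ} [NeZero ℓ] (hℓ : ℓ.Prime) {ζ : L}
    (hζ : IsPrimitiveRoot ζ ℓ) {x : LaurentSeries ℤ} (hx : IsEtaQuot ℓ x) :
    IsNormEig ℓ (coeffMap (Int.castRingHom L) x) := by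
  induction hx with
  | single k =>
    rw [coeffMap_single, map_one]
    exact isNormEig_single hℓ hζ k
  | eulerAt d hd =>
    rw [coeffMap_qExpand_h400, coeffMap_ofPowerSeries]
    exact isNormEig_eulerAt hℓ hζ d hd
  | mul _ _ ihx ihy =>
    rw [map_mul]
    exact ihx.mul ihy
  | inv _ hxy ihx =>
    refine ihx.of_mul_eq_one ?_
    rw [← map_mul, hxy, map_one]

/-- `IsEtaQuot.isNormEig`, unfolded. -/
theorem kronNorm_of_isEtaQuot {ℓ : ℕ} [NeZero ℓ] (hℓ : ℓ.Prime) {ζ : L}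
    (hζ : IsPrimitiveRoot ζ ℓ) {x : LaurentSeries ℤ} (hx : IsEtaQuot ℓ x) :
    ∃ c : L, c ≠ 0 ∧
      kronNorm ℓ (coeffMap (Int.castRingHom L) x) =
        HahnSeries.C c * coeffMap (Int.castRingHom L) x ^ (ℓ + 1) :=
  hx.isNormEig hℓ hζ

theorem algebraMap_eq_C (c : L) :
    algebraMap L (LaurentSeries L) c = HahnSeries.C c := by
  have h1 : algebraMap L (PowerSeries L) c = PowerSeries.C c := by simp
  rw [HahnSeries.algebraMap_apply', h1, HahnSeries.ofPowerSeries_C]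

/-- **UNIT-EIS** in the shape of `Ribet.H884.UnitEisStatement`, for any η-quotient and any field
with enough `ℓ`-th roots of unity (e.g. `L = AlgebraicClosure ℚ`: the instance is found by
`inferInstance` once `NeZero ((ℓ : ℕ) : L)` is in scope, see `unitEis_of_isEtaQuot_algClosed`);
the constant is written
`algebraMap L (LaurentSeries L) c` (= `A2.H708.cst c`, an `abbrev`). -/
theorem unitEis_of_isEtaQuot (ℓ : Nat.Primes) [NeZero (ℓ : ℕ)]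
    [HasEnoughRootsOfUnity L (ℓ : ℕ)]
    {x : LaurentSeries ℤ} (hx : IsEtaQuot (ℓ : ℕ) x) :
    ∃ c : L, c ≠ 0 ∧
      kronNorm (ℓ : ℕ) (coeffMap (Int.castRingHom L) x) =
        algebraMap L (LaurentSeries L) c * coeffMap (Int.castRingHom L) x ^ ((ℓ : ℕ) + 1) := by
  obtain ⟨ζ, hζ⟩ := HasEnoughRootsOfUnity.exists_primitiveRoot L (ℓ : ℕ)
  obtain ⟨c, hc, h⟩ := hx.isNormEig (L := L) ℓ.2 hζ
  exact ⟨c, hc, by rw [h, algebraMap_eq_C]⟩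

/-- `unitEis_of_isEtaQuot` over an algebraically closed field of characteristic `0`. -/
theorem unitEis_of_isEtaQuot_algClosed [IsAlgClosed L] [CharZero L] (ℓ : Nat.Primes)
    [NeZero (ℓ : ℕ)] {x : LaurentSeries ℤ} (hx : IsEtaQuot (ℓ : ℕ) x) :
    ∃ c : L, c ≠ 0 ∧
      kronNorm (ℓ : ℕ) (coeffMap (Int.castRingHom L) x) =
        algebraMap L (LaurentSeries L) c * coeffMap (Int.castRingHom L) x ^ ((ℓ : ℕ) + 1) := by
  have : NeZero (((ℓ : ℕ) : ℕ) : L) := ⟨by exact_mod_cast ℓ.2.ne_zero⟩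
  exact unitEis_of_isEtaQuot ℓ hx

end Main

/-! ## The candidate units at `p = 3` -/

section Shapes

variable {ℓ : ℕ}

/-- **The unit `v = t⁻² (E(t)E(t²)/(E(t³)E(t⁶)))⁸`** (`= (η₁η₂/(η₃η₆))⁸`, slope `8`), in the
syntactic shape of `S59.Unit3.H461.v3L`, is an η-quotient prime to every prime `ℓ ∉ {2, 3}`. -/
theorem isEtaQuot_shape8 (hℓ : ℓ.Prime) (h2 : ℓ ≠ 2) (h3 : ℓ ≠ 3) {I : PowerSeries ℤ}
    (hI : etaProd * I = 1) :
    IsEtaQuot ℓ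
      (HahnSeries.single (-2 : ℤ) (1 : ℤ) * HahnSeries.ofPowerSeries ℤ ℤ (etaProd ^ 8) *
        qExpand ℤ 2 (HahnSeries.ofPowerSeries ℤ ℤ (etaProd ^ 8)) *
        qExpand ℤ 3 (HahnSeries.ofPowerSeries ℤ ℤ (I ^ 8)) *
        qExpand ℤ 6 (HahnSeries.ofPowerSeries ℤ ℤ (I ^ 8))) := by
  have hd2 : ¬ ℓ ∣ 2 := fun h => h2 ((Nat.prime_dvd_prime_iff_eq hℓ Nat.prime_two).1 h)
  have hd3 : ¬ ℓ ∣ 3 := fun h => h3 ((Nat.prime_dvd_prime_iff_eq hℓ Nat.prime_three).1 h)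
  have hd6 : ¬ ℓ ∣ 6 := fun h =>
    (hℓ.dvd_mul.1 (show ℓ ∣ 2 * 3 from h)).elim hd2 hd3
  have hE := IsEtaQuot.euler_pow (ℓ := ℓ) hℓ.ne_one 8
  have hEi := IsEtaQuot.euler_inv_pow (ℓ := ℓ) hℓ.ne_one hI 8
  exact ((((IsEtaQuot.single (-2)).mul hE).mul (hE.qExpand hℓ 2 hd2)).mul
    (hEi.qExpand hℓ 3 hd3)).mul (hEi.qExpand hℓ 6 hd6)

/-- **UNIT-EIS for `v = (η₁η₂/(η₃η₆))⁸`**, shape of `Ribet.H884.UnitEisStatement`. -/
theorem unitEis_shape8 {L : Type*} [Field L] (ℓ : Nat.Primes)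
    [NeZero (ℓ : ℕ)] [HasEnoughRootsOfUnity L (ℓ : ℕ)] (h2 : (ℓ : ℕ) ≠ 2) (h3 : (ℓ : ℕ) ≠ 3)
    {I : PowerSeries ℤ} (hI : etaProd * I = 1) (v : LaurentSeries ℤ)
    (hv : v = HahnSeries.single (-2 : ℤ) (1 : ℤ) * HahnSeries.ofPowerSeries ℤ ℤ (etaProd ^ 8) *
        qExpand ℤ 2 (HahnSeries.ofPowerSeries ℤ ℤ (etaProd ^ 8)) *
        qExpand ℤ 3 (HahnSeries.ofPowerSeries ℤ ℤ (I ^ 8)) *
        qExpand ℤ 6 (HahnSeries.ofPowerSeries ℤ ℤ (I ^ 8))) :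
    ∃ c : L, c ≠ 0 ∧
      kronNorm (ℓ : ℕ) (coeffMap (Int.castRingHom L) v) =
        algebraMap L (LaurentSeries L) c * coeffMap (Int.castRingHom L) v ^ ((ℓ : ℕ) + 1) := by
  subst hv
  exact unitEis_of_isEtaQuot ℓ (isEtaQuot_shape8 ℓ.2 h2 h3 hI)

/-- **The Hauptmodul of `Γ₀(6)`**: `t⁻¹ E(t)⁵ E(t³) / (E(t²) E(t⁶)⁵)` (`= η₁⁵η₃/(η₂η₆⁵)`), for any
formal inverse `I` of the Euler product. -/
theorem isEtaQuot_shapeD6 (hℓ : ℓ.Prime) (h2 : ℓ ≠ 2) (h3 : ℓ ≠ 3) {I : PowerSeries ℤ}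
    (hI : etaProd * I = 1) :
    IsEtaQuot ℓ
      (HahnSeries.single (-1 : ℤ) (1 : ℤ) * HahnSeries.ofPowerSeries ℤ ℤ (etaProd ^ 5) *
        qExpand ℤ 3 (HahnSeries.ofPowerSeries ℤ ℤ etaProd) *
        qExpand ℤ 2 (HahnSeries.ofPowerSeries ℤ ℤ I) *
        qExpand ℤ 6 (HahnSeries.ofPowerSeries ℤ ℤ (I ^ 5))) := by
  have hd2 : ¬ ℓ ∣ 2 := fun h => h2 ((Nat.prime_dvd_prime_iff_eq hℓ Nat.prime_two).1 h)
  have hd3 : ¬ ℓ ∣ 3 := fun h => h3 ((Nat.prime_dvd_prime_iff_eq hℓ Nat.prime_three).1 h)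
  have hd6 : ¬ ℓ ∣ 6 := fun h =>
    (hℓ.dvd_mul.1 (show ℓ ∣ 2 * 3 from h)).elim hd2 hd3
  have hE5 := IsEtaQuot.euler_pow (ℓ := ℓ) hℓ.ne_one 5
  have hE := IsEtaQuot.euler (ℓ := ℓ) hℓ.ne_one
  have hI1 : IsEtaQuot ℓ (HahnSeries.ofPowerSeries ℤ ℤ I) := by
    have h := IsEtaQuot.euler_inv_pow (ℓ := ℓ) hℓ.ne_one hI 1
    rwa [pow_one] at h
  have hI5 := IsEtaQuot.euler_inv_pow (ℓ := ℓ) hℓ.ne_one hI 5
  exact ((((IsEtaQuot.single (-1)).mul hE5).mul (hE.qExpand hℓ 3 hd3)).mul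
    (hI1.qExpand hℓ 2 hd2)).mul (hI5.qExpand hℓ 6 hd6)

/-- **UNIT-EIS for the Hauptmodul of `Γ₀(6)`**. -/
theorem unitEis_shapeD6 {L : Type*} [Field L] (ℓ : Nat.Primes)
    [NeZero (ℓ : ℕ)] [HasEnoughRootsOfUnity L (ℓ : ℕ)] (h2 : (ℓ : ℕ) ≠ 2) (h3 : (ℓ : ℕ) ≠ 3)
    {I : PowerSeries ℤ} (hI : etaProd * I = 1) (v : LaurentSeries ℤ)
    (hv : v = HahnSeries.single (-1 : ℤ) (1 : ℤ) * HahnSeries.ofPowerSeries ℤ ℤ (etaProd ^ 5) *
        qExpand ℤ 3 (HahnSeries.ofPowerSeries ℤ ℤ etaProd) *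
        qExpand ℤ 2 (HahnSeries.ofPowerSeries ℤ ℤ I) *
        qExpand ℤ 6 (HahnSeries.ofPowerSeries ℤ ℤ (I ^ 5))) :
    ∃ c : L, c ≠ 0 ∧
      kronNorm (ℓ : ℕ) (coeffMap (Int.castRingHom L) v) =
        algebraMap L (LaurentSeries L) c * coeffMap (Int.castRingHom L) v ^ ((ℓ : ℕ) + 1) := by
  subst hv
  exact unitEis_of_isEtaQuot ℓ (isEtaQuot_shapeD6 ℓ.2 h2 h3 hI)

/-- **The units `t^s (E(t) E(t^r) / (E(t³) E(t^(3r))))^n`** (`s : ℤ`; for `(η₁η_r/(η₃η_{3r}))^n`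
take `s = -n (r + 1) / 12`), for any `r ≠ 0` and any prime `ℓ ∤ 3r`. -/
theorem isEtaQuot_shapeR (hℓ : ℓ.Prime) (h3 : ℓ ≠ 3) (r : ℕ) [NeZero r] [NeZero (3 * r)]
    (hr : ¬ ℓ ∣ r) (s : ℤ) (n : ℕ) {I : PowerSeries ℤ} (hI : etaProd * I = 1) :
    IsEtaQuot ℓ
      (HahnSeries.single s (1 : ℤ) * HahnSeries.ofPowerSeries ℤ ℤ (etaProd ^ n) *
        qExpand ℤ r (HahnSeries.ofPowerSeries ℤ ℤ (etaProd ^ n)) *
        qExpand ℤ 3 (HahnSeries.ofPowerSeries ℤ ℤ (I ^ n)) *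
        qExpand ℤ (3 * r) (HahnSeries.ofPowerSeries ℤ ℤ (I ^ n))) := by
  have hd3 : ¬ ℓ ∣ 3 := fun h => h3 ((Nat.prime_dvd_prime_iff_eq hℓ Nat.prime_three).1 h)
  have hd3r : ¬ ℓ ∣ 3 * r := fun h => (hℓ.dvd_mul.1 h).elim hd3 hr
  have hE := IsEtaQuot.euler_pow (ℓ := ℓ) hℓ.ne_one n
  have hEi := IsEtaQuot.euler_inv_pow (ℓ := ℓ) hℓ.ne_one hI n
  exact ((((IsEtaQuot.single s).mul hE).mul (hE.qExpand hℓ r hr)).mul
    (hEi.qExpand hℓ 3 hd3)).mul (hEi.qExpand hℓ (3 * r) hd3r)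

/-- **UNIT-EIS for `t^s (E(t) E(t^r) / (E(t³) E(t^(3r))))^n`**. -/
theorem unitEis_shapeR {L : Type*} [Field L] (ℓ : Nat.Primes)
    [NeZero (ℓ : ℕ)] [HasEnoughRootsOfUnity L (ℓ : ℕ)] (h3 : (ℓ : ℕ) ≠ 3) (r : ℕ) [NeZero r]
    [NeZero (3 * r)] (hr : ¬ (ℓ : ℕ) ∣ r) (s : ℤ) (n : ℕ) {I : PowerSeries ℤ} (hI : etaProd * I = 1)
    (v : LaurentSeries ℤ)
    (hv : v = HahnSeries.single s (1 : ℤ) * HahnSeries.ofPowerSeries ℤ ℤ (etaProd ^ n) *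
        qExpand ℤ r (HahnSeries.ofPowerSeries ℤ ℤ (etaProd ^ n)) *
        qExpand ℤ 3 (HahnSeries.ofPowerSeries ℤ ℤ (I ^ n)) *
        qExpand ℤ (3 * r) (HahnSeries.ofPowerSeries ℤ ℤ (I ^ n))) :
    ∃ c : L, c ≠ 0 ∧
      kronNorm (ℓ : ℕ) (coeffMap (Int.castRingHom L) v) =
        algebraMap L (LaurentSeries L) c * coeffMap (Int.castRingHom L) v ^ ((ℓ : ℕ) + 1) := by
  subst hv
  exact unitEis_of_isEtaQuot ℓ (isEtaQuot_shapeR ℓ.2 h3 r hr s n hI)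

end Shapes

end Fermat.Agent.S59.Unit3.H37

end
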