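/-
S59 MOONSHOT / cells (A), (B1) at `p = 3`: more shapes of formal η-quotients (helper37).

`isEtaQuot_shapeQR` / `unitEis_shapeQR`: the units
`t^s (E(t) E(t^r) / (E(t^q) E(t^(q r))))^n` (`= (η₁η_r/(η_qη_{qr}))^n` up to the power of `t`),
for arbitrary `q, r ≠ 0` and every prime `ℓ ∤ q r` — the shape of the WALL-q units at `p = 3`
(`r = 1`: `q ≡ 1 (3)`; `r ≡ 2 (3)` an auxiliary prime) and of `η₁η_r/(η₃η_{3r})`.
`isEtaQuot_shapeQ` / `unitEis_shapeQ`: `t^s (E(t)/E(t^q))^n`.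
-/
import Fermat.Agent.S59.Unit3.H37.EtaQuotEis

set_option autoImplicit false

noncomputable section

namespace Fermat.Agent.S59.Unit3.H37

open PowerSeries ModularCurve
open Fermat.Agent.S37 Fermat.Agent.S37.H400
open Fermat.Agent.Ribet.H67

variable {ℓ : ℕ}

/-- `t^s (E(t) E(t^r) / (E(t^q) E(t^(q r))))^n` is an η-quotient prime to every prime
`ℓ ∤ q r`. -/
theorem isEtaQuot_shapeQR (hℓ : ℓ.Prime) (q r : ℕ) [NeZero q] [NeZero r] [NeZero (q * r)]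
    (hq : ¬ ℓ ∣ q) (hr : ¬ ℓ ∣ r) (s : ℤ) (n : ℕ) {I : PowerSeries ℤ} (hI : etaProd * I = 1) :
    IsEtaQuot ℓ
      (HahnSeries.single s (1 : ℤ) * HahnSeries.ofPowerSeries ℤ ℤ (etaProd ^ n) *
        qExpand ℤ r (HahnSeries.ofPowerSeries ℤ ℤ (etaProd ^ n)) *
        qExpand ℤ q (HahnSeries.ofPowerSeries ℤ ℤ (I ^ n)) *
        qExpand ℤ (q * r) (HahnSeries.ofPowerSeries ℤ ℤ (I ^ n))) := by
  have hqr : ¬ ℓ ∣ q * r := fun h => (hℓ.dvd_mul.1 h).elim hq hr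
  have hE := IsEtaQuot.euler_pow (ℓ := ℓ) hℓ.ne_one n
  have hEi := IsEtaQuot.euler_inv_pow (ℓ := ℓ) hℓ.ne_one hI n
  exact ((((IsEtaQuot.single s).mul hE).mul (hE.qExpand hℓ r hr)).mul
    (hEi.qExpand hℓ q hq)).mul (hEi.qExpand hℓ (q * r) hqr)

/-- **UNIT-EIS for `t^s (E(t) E(t^r) / (E(t^q) E(t^(q r))))^n`**. -/
theorem unitEis_shapeQR {L : Type*} [Field L] (ℓ : Nat.Primes)
    [NeZero (ℓ : ℕ)] [HasEnoughRootsOfUnity L (ℓ : ℕ)] (q r : ℕ) [NeZero q] [NeZero r]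
    [NeZero (q * r)] (hq : ¬ (ℓ : ℕ) ∣ q) (hr : ¬ (ℓ : ℕ) ∣ r) (s : ℤ) (n : ℕ)
    {I : PowerSeries ℤ} (hI : etaProd * I = 1) (v : LaurentSeries ℤ)
    (hv : v = HahnSeries.single s (1 : ℤ) * HahnSeries.ofPowerSeries ℤ ℤ (etaProd ^ n) *
        qExpand ℤ r (HahnSeries.ofPowerSeries ℤ ℤ (etaProd ^ n)) *
        qExpand ℤ q (HahnSeries.ofPowerSeries ℤ ℤ (I ^ n)) *
        qExpand ℤ (q * r) (HahnSeries.ofPowerSeries ℤ ℤ (I ^ n))) :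
    ∃ c : L, c ≠ 0 ∧
      kronNorm (ℓ : ℕ) (coeffMap (Int.castRingHom L) v) =
        algebraMap L (LaurentSeries L) c * coeffMap (Int.castRingHom L) v ^ ((ℓ : ℕ) + 1) := by
  subst hv
  exact unitEis_of_isEtaQuot ℓ (isEtaQuot_shapeQR ℓ.2 q r hq hr s n hI)

/-- `t^s (E(t) / E(t^q))^n` is an η-quotient prime to every prime `ℓ ∤ q`. -/
theorem isEtaQuot_shapeQ (hℓ : ℓ.Prime) (q : ℕ) [NeZero q] (hq : ¬ ℓ ∣ q) (s : ℤ) (n : ℕ)
    {I : PowerSeries ℤ} (hI : etaProd * I = 1) :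
    IsEtaQuot ℓ
      (HahnSeries.single s (1 : ℤ) * HahnSeries.ofPowerSeries ℤ ℤ (etaProd ^ n) *
        qExpand ℤ q (HahnSeries.ofPowerSeries ℤ ℤ (I ^ n))) := by
  have hE := IsEtaQuot.euler_pow (ℓ := ℓ) hℓ.ne_one n
  have hEi := IsEtaQuot.euler_inv_pow (ℓ := ℓ) hℓ.ne_one hI n
  exact ((IsEtaQuot.single s).mul hE).mul (hEi.qExpand hℓ q hq)

/-- **UNIT-EIS for `t^s (E(t) / E(t^q))^n`**. -/
theorem unitEis_shapeQ {L : Type*} [Field L] (ℓ : Nat.Primes)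
    [NeZero (ℓ : ℕ)] [HasEnoughRootsOfUnity L (ℓ : ℕ)] (q : ℕ) [NeZero q]
    (hq : ¬ (ℓ : ℕ) ∣ q) (s : ℤ) (n : ℕ)
    {I : PowerSeries ℤ} (hI : etaProd * I = 1) (v : LaurentSeries ℤ)
    (hv : v = HahnSeries.single s (1 : ℤ) * HahnSeries.ofPowerSeries ℤ ℤ (etaProd ^ n) *
        qExpand ℤ q (HahnSeries.ofPowerSeries ℤ ℤ (I ^ n))) :
    ∃ c : L, c ≠ 0 ∧
      kronNorm (ℓ : ℕ) (coeffMap (Int.castRingHom L) v) =
        algebraMap L (LaurentSeries L) c * coeffMap (Int.castRingHom L) v ^ ((ℓ : ℕ) + 1) := by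
  subst hv
  exact unitEis_of_isEtaQuot ℓ (isEtaQuot_shapeQ ℓ.2 q hq s n hI)

/-- A formal inverse of the Euler product (so that the hypothesis `hI` of the shape lemmas can
always be discharged): `dedekindEtaUnitInv * etaProd ^ 23`. -/
theorem etaProd_mul_inv23 : etaProd * (dedekindEtaUnitInv * etaProd ^ 23) = 1 := by
  calc etaProd * (dedekindEtaUnitInv * etaProd ^ 23)
      = etaProd ^ 24 * dedekindEtaUnitInv := by ring
    _ = 1 := dedekindEtaUnit_mul_inv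

end Fermat.Agent.S59.Unit3.H37

end
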